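/-
TEAM FF19 -> S19, block R [ORDER] (helper23).  ABSTRACT FORM, Mathlib only.

`Γ` (= inertia `I`) acts on the field `K` (= `ℚ̄`) and on the abelian group `J`.  `A` a subring of `K`,
`O = A ∩ K^Γ`.  `J1 ≤ J` a `Γ`-stable subgroup with coordinates `t i : J → K` (`i : ι`, only the values on `J1`
matter): (T1) values in `A`, (T2) equivariant, (T3) jointly injective, (LAW) the group law is polynomial over `O`
on finite stable subsets.  `G` a finite group with `Γ`-action, `inc : G →+ J` injective equivariant, (LIFT) every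
`inc x` is congruent modulo `J1` to a `Γ`-fixed element.

OUTPUT `Ord.main` : the `O`-algebra `R = O[1_c, t_i(x - y_c)]` of functions on `G` is a local order (`IsLocOrd`):
equivariant, finitely generated as a module, separates the points, stable under the comultiplication.
-/
import Mathlib

set_option autoImplicit false

noncomputable section

namespace Fermat.Agent.FF19.Ord

open Polynomial

/-- a local order: an `O`-algebra of `Γ`-equivariant functions on `G`, finite over `O`, separating the points,
stable under the comultiplication. -/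
structure IsLocOrd (Γ : Type) {K : Type} [Group Γ] [Field K] [MulSemiringAction Γ K] (O : Subring K)
    (G : Type) [AddCommGroup G] [MulAction Γ G] (R : Subalgebra O (G → K)) : Prop where
  equiv : ∀ φ ∈ R, ∀ (σ : Γ) (x : G), φ (σ • x) = σ • φ x
  fg : (Subalgebra.toSubmodule R).FG
  sep : ∀ x y : G, x ≠ y → ∃ φ ∈ R, φ x ≠ φ y
  comul : ∀ φ ∈ R, ∃ (n : ℕ) (a b : Fin n → G → K), (∀ i, a i ∈ R) ∧ (∀ i, b i ∈ R) ∧
    ∀ x y, φ (x + y) = ∑ i, a i x * b i y

/-- the hypotheses on the coordinates of the kernel of reduction. -/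
structure IsCoord (Γ : Type) {K J ι : Type} [Group Γ] [Field K] [MulSemiringAction Γ K] [AddCommGroup J]
    [DistribMulAction Γ J] (A O : Subring K) (J1 : AddSubgroup J) (t : ι → J → K) : Prop where
  mem_O : ∀ a : K, a ∈ O ↔ a ∈ A ∧ ∀ σ : Γ, σ • a = a
  stab : ∀ (σ : Γ), ∀ z ∈ J1, σ • z ∈ J1
  T1 : ∀ i, ∀ z ∈ J1, t i z ∈ A
  T2 : ∀ i (σ : Γ), ∀ z ∈ J1, t i (σ • z) = σ • t i z
  T3 : ∀ z ∈ J1, ∀ w ∈ J1, (∀ i, t i z = t i w) → z = w
  law : ∀ S S' : Set J, S.Finite → S'.Finite → S ⊆ J1 → S' ⊆ J1 → (∀ (σ : Γ), ∀ z ∈ S, σ • z ∈ S) →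
    (∀ (σ : Γ), ∀ z ∈ S', σ • z ∈ S') → ∀ i, ∃ P : MvPolynomial (ι ⊕ ι) O, ∀ z ∈ S, ∀ w ∈ S',
      t i (z + w) = MvPolynomial.aeval (Sum.elim (fun j => t j z) (fun j => t j w)) P

section Integral

variable {Γ K : Type} [Group Γ] [Field K] [MulSemiringAction Γ K]

/-- an equivariant function with values in `A` on a finite `Γ`-set is integral over `O = A ∩ K^Γ`. -/
theorem isIntegral_of_equiv (A O : Subring K) (hO : ∀ a : K, a ∈ O ↔ a ∈ A ∧ ∀ σ : Γ, σ • a = a)
    {G : Type} [Finite G] [MulAction Γ G] (φ : G → K) (hA : ∀ x, φ x ∈ A)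
    (hφ : ∀ (σ : Γ) (x : G), φ (σ • x) = σ • φ x) : IsIntegral O φ := by
  classical
  cases nonempty_fintype G
  set P : K[X] := ∏ x : G, (X - C (φ x)) with hP
  have hmon : P.Monic := monic_prod_of_monic _ _ fun x _ => monic_X_sub_C _
  have hliftA : P ∈ lifts A.subtype := by
    rw [hP]
    refine Subsemiring.prod_mem _ fun x _ => ?_
    refine ⟨X - C ⟨φ x, hA x⟩, ?_⟩
    simp
  have hfix : ∀ σ : Γ, P.map (MulSemiringAction.toRingHom Γ K σ) = P := by
    intro σ
    rw [hP, Polynomial.map_prod]
    have e : ∀ x : G, (X - C (φ x)).map (MulSemiringAction.toRingHom Γ K σ) =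
        X - C (φ (σ • x)) := by
      intro x
      rw [Polynomial.map_sub, map_X, map_C, hφ]
      rfl
    simp_rw [e]
    exact Fintype.prod_equiv (MulAction.toPerm σ) _ _ fun x => rfl
  have hliftO : P ∈ lifts O.subtype := by
    rw [lifts_iff_coeff_lifts]
    intro n
    have h1 : P.coeff n ∈ A := by
      obtain ⟨a, ha⟩ := (lifts_iff_coeff_lifts _).1 hliftA n
      rw [← ha]
      exact a.2
    have h2 : ∀ σ : Γ, σ • P.coeff n = P.coeff n := by
      intro σ
      conv_rhs => rw [← hfix σ]
      rw [coeff_map]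
      rfl
    exact ⟨⟨P.coeff n, (hO _).2 ⟨h1, h2⟩⟩, rfl⟩
  obtain ⟨q, hq, -, hqm⟩ := lifts_and_natDegree_eq_and_monic hliftO hmon
  refine ⟨q, hqm, ?_⟩
  funext x
  have e1 : (eval₂ (algebraMap O (G → K)) φ q) x = eval₂ (algebraMap O K) (φ x) q := by
    have := Polynomial.hom_eval₂ q (algebraMap O (G → K)) (Pi.evalRingHom (fun _ : G => K) x) φ
    exact this
  rw [e1]
  have e2 : eval₂ (algebraMap O K) (φ x) q = (q.map O.subtype).eval (φ x) := by
    rw [eval_map]
    rfl
  rw [e2, hq, hP, eval_prod]
  exact Finset.prod_eq_zero (Finset.mem_univ x) (by simp)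

end Integral

section Tools

variable {K : Type} [Field K]

/-- composition with a map, as a morphism of algebras. -/
def pull (O : Subring K) {X Y : Type} (f : X → Y) : (Y → K) →ₐ[O] (X → K) where
  toFun φ := φ ∘ f
  map_one' := rfl
  map_mul' _ _ := rfl
  map_zero' := rfl
  map_add' _ _ := rfl
  commutes' _ := rfl

@[simp] lemma pull_apply (O : Subring K) {X Y : Type} (f : X → Y) (φ : Y → K) (x : X) :
    pull O f φ x = φ (f x) := rfl

/-- the elements of `R ⊗ R` are sums of products. -/
theorem sum_form (O : Subring K) {G : Type} (R : Subalgebra O (G → K)) (F : G × G → K)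
    (hF : F ∈ R.map (pull O Prod.fst) ⊔ R.map (pull O Prod.snd)) :
    ∃ (n : ℕ) (a b : Fin n → G → K), (∀ i, a i ∈ R) ∧ (∀ i, b i ∈ R) ∧
      ∀ x y, F (x, y) = ∑ i, a i x * b i y := by
  have h : F ∈ Subalgebra.toSubmodule (R.map (pull O Prod.fst)) *
      Subalgebra.toSubmodule (R.map (pull O Prod.snd)) := by
    rw [Subalgebra.mul_toSubmodule]
    exact hF
  refine Submodule.mul_induction_on h ?_ ?_
  · rintro _ ⟨a, ha, rfl⟩ _ ⟨b, hb, rfl⟩
    exact ⟨1, fun _ => a, fun _ => b, fun _ => ha, fun _ => hb, fun x y => by simp⟩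
  · rintro F F' ⟨n, a, b, ha, hb, h⟩ ⟨n', a', b', ha', hb', h'⟩
    refine ⟨n + n', Fin.append a a', Fin.append b b', ?_, ?_, ?_⟩
    · intro i
      refine Fin.addCases (fun j => ?_) (fun j => ?_) i
      · rw [Fin.append_left]; exact ha j
      · rw [Fin.append_right]; exact ha' j
    · intro i
      refine Fin.addCases (fun j => ?_) (fun j => ?_) i
      · rw [Fin.append_left]; exact hb j
      · rw [Fin.append_right]; exact hb' j
    · intro x y
      rw [Fin.sum_univ_add, Pi.add_apply, h, h']
      simp only [Fin.append_left, Fin.append_right]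

/-- polynomial expressions of elements of a subalgebra. -/
theorem aeval_mem' {O B σ : Type} [CommRing O] [CommRing B] [Algebra O B] (T : Subalgebra O B)
    (f : σ → B) (hf : ∀ i, f i ∈ T) (P : MvPolynomial σ O) : MvPolynomial.aeval f P ∈ T := by
  have h1 : MvPolynomial.aeval f P ∈ (MvPolynomial.aeval (R := O) f).range := ⟨P, rfl⟩
  rw [MvPolynomial.aeval_range] at h1
  refine Algebra.adjoin_le ?_ h1
  rintro _ ⟨i, rfl⟩
  exact hf i

/-- evaluation of a polynomial expression of functions. -/
theorem aeval_fun (O : Subring K) {X σ : Type} (f : σ → X → K) (P : MvPolynomial σ O) (x : X) :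
    (MvPolynomial.aeval f P) x = MvPolynomial.aeval (fun i => f i x) P :=
  MvPolynomial.comp_aeval_apply f (Pi.evalAlgHom O (fun _ : X => K) x) P

end Tools

section Main

variable {Γ K J ι : Type} [Group Γ] [Field K] [MulSemiringAction Γ K] [AddCommGroup J]
  [DistribMulAction Γ J]

/-- the algebra of equivariant functions. -/
def equivAlg (Γ : Type) {K : Type} [Group Γ] [Field K] [MulSemiringAction Γ K] (O : Subring K)
    (hO : ∀ a ∈ O, ∀ σ : Γ, σ • a = a) (G : Type) [MulAction Γ G] : Subalgebra O (G → K) where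
  carrier := {φ | ∀ (σ : Γ) (x : G), φ (σ • x) = σ • φ x}
  mul_mem' := by
    intro φ ψ h h' σ x
    simp only [Pi.mul_apply, h σ x, h' σ x, smul_mul']
  add_mem' := by
    intro φ ψ h h' σ x
    simp only [Pi.add_apply, h σ x, h' σ x, smul_add]
  algebraMap_mem' := by
    intro r σ x
    exact (hO r.1 r.2 σ).symm

/-- **BLOCK R.** -/
theorem main [Finite ι] (A O : Subring K) (J1 : AddSubgroup J) (t : ι → J → K)
    (hC : IsCoord Γ A O J1 t) (G : Type) [AddCommGroup G] [Finite G] [MulAction Γ G] (inc : G →+ J)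
    (hinj : Function.Injective inc) (hinc : ∀ (σ : Γ) (x : G), inc (σ • x) = σ • inc x)
    (lift : ∀ x : G, ∃ y : J, (∀ σ : Γ, σ • y = y) ∧ inc x - y ∈ J1) :
    ∃ R : Subalgebra O (G → K), IsLocOrd Γ O G R := by
  classical
  -- the cosets
  let N : AddSubgroup G := J1.comap inc
  let mk : G → G ⧸ N := fun x => (x : G ⧸ N)
  have hmk_add : ∀ x y, mk (x + y) = mk x + mk y := fun x y => rfl
  have hmk_surj : Function.Surjective mk := QuotientAddGroup.mk_surjective
  cases nonempty_fintype (G ⧸ N)
  choose y0 hy0fix hy0 using lift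
  let yc : G ⧸ N → J := fun c => y0 c.out
  have hyfix : ∀ c (σ : Γ), σ • yc c = yc c := fun c σ => hy0fix _ σ
  let u : G → J := fun x => inc x - yc (mk x)
  have hu : ∀ x, u x ∈ J1 := by
    intro x
    have h1 : mk (mk x).out = mk x := Quotient.out_eq' _
    have h2 : -(mk x).out + x ∈ N := QuotientAddGroup.eq.1 h1
    have h3 : inc (-(mk x).out + x) ∈ J1 := h2
    have e : u x = inc (-(mk x).out + x) + (inc (mk x).out - y0 (mk x).out) := by
      simp only [u, yc, map_add, map_neg]
      abel
    rw [e]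
    exact J1.add_mem h3 (hy0 _)
  have hmk : ∀ (σ : Γ) (x : G), mk (σ • x) = mk x := by
    intro σ x
    refine QuotientAddGroup.eq.2 ?_
    show inc (-(σ • x) + x) ∈ J1
    have e : inc (-(σ • x) + x) = u x - σ • u x := by
      simp only [u, map_add, map_neg, hinc, smul_sub, hyfix]
      abel
    rw [e]
    exact J1.sub_mem (hu x) (hC.stab σ _ (hu x))
  have husm : ∀ (σ : Γ) (x : G), u (σ • x) = σ • u x := by
    intro σ x
    simp only [u, hmk, hinc, smul_sub, hyfix]
  -- the generators
  let e : G ⧸ N → G → K := fun c x => if mk x = c then 1 else 0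
  let τ : ι → G → K := fun i x => t i (u x)
  let R : Subalgebra O (G → K) := Algebra.adjoin O (Set.range e ∪ Set.range τ)
  have he : ∀ c, e c ∈ R := fun c => Algebra.subset_adjoin (Or.inl ⟨c, rfl⟩)
  have hτ : ∀ i, τ i ∈ R := fun i => Algebra.subset_adjoin (Or.inr ⟨i, rfl⟩)
  have heq_e : ∀ c (σ : Γ) (x : G), e c (σ • x) = σ • e c x := by
    intro c σ x
    simp only [e, hmk]
    split_ifs
    · rw [smul_one]
    · rw [smul_zero]
  have heq_τ : ∀ i (σ : Γ) (x : G), τ i (σ • x) = σ • τ i x := by
    intro i σ x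
    simp only [τ, husm]
    exact hC.T2 i σ _ (hu x)
  have hOfix : ∀ a ∈ O, ∀ σ : Γ, σ • a = a := fun a ha => ((hC.mem_O a).1 ha).2
  refine ⟨R, ?_, ?_, ?_, ?_⟩
  · -- equivariance
    have hle : R ≤ equivAlg Γ O hOfix G := by
      refine Algebra.adjoin_le ?_
      rintro _ (⟨c, rfl⟩ | ⟨i, rfl⟩)
      · exact heq_e c
      · exact heq_τ i
    exact fun φ hφ => hle hφ
  · -- finiteness
    refine fg_adjoin_of_finite ((Set.finite_range e).union (Set.finite_range τ)) ?_
    rintro _ (⟨c, rfl⟩ | ⟨i, rfl⟩)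
    · refine isIntegral_of_equiv A O hC.mem_O (e c) (fun x => ?_) (heq_e c)
      simp only [e]
      split_ifs
      · exact A.one_mem
      · exact A.zero_mem
    · exact isIntegral_of_equiv A O hC.mem_O (τ i) (fun x => hC.T1 i _ (hu x)) (heq_τ i)
  · -- separation
    intro x x' hxx
    by_cases hc : mk x = mk x'
    · have hne : u x ≠ u x' := by
        intro h
        apply hxx
        apply hinj
        simp only [u, hc] at h
        exact sub_left_injective h
      by_contra hcon
      simp only [not_exists, not_and, not_not] at hcon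
      exact hne (hC.T3 _ (hu x) _ (hu x') fun i => hcon (τ i) (hτ i))
    · refine ⟨e (mk x), he _, ?_⟩
      simp only [e, if_true]
      rw [if_neg (fun h => hc h.symm)]
      exact one_ne_zero
  · -- comultiplication
    let p1 : (G → K) →ₐ[O] (G × G → K) := pull O (Prod.fst : G × G → G)
    let p2 : (G → K) →ₐ[O] (G × G → K) := pull O (Prod.snd : G × G → G)
    let Δ : (G → K) →ₐ[O] (G × G → K) := pull O (fun q : G × G => q.1 + q.2)
    let T : Subalgebra O (G × G → K) := R.map p1 ⊔ R.map p2
    have hp1 : ∀ φ ∈ R, p1 φ ∈ T := fun φ hφ => (le_sup_left : R.map p1 ≤ T) ⟨φ, hφ, rfl⟩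
    have hp2 : ∀ φ ∈ R, p2 φ ∈ T := fun φ hφ => (le_sup_right : R.map p2 ≤ T) ⟨φ, hφ, rfl⟩
    have key : R.map Δ ≤ T := by
      rw [Subalgebra.map_le]
      refine Algebra.adjoin_le ?_
      rintro _ (⟨c, rfl⟩ | ⟨i, rfl⟩)
      · show Δ (e c) ∈ T
        have hsum : Δ (e c) = ∑ c', p1 (e c') * p2 (e (c - c')) := by
          funext ⟨x, y⟩
          rw [Finset.sum_apply]
          simp only [Δ, p1, p2, pull_apply, Pi.mul_apply, e, hmk_add]
          rw [Finset.sum_eq_single (mk x)]
          · rw [if_pos rfl, one_mul]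
            by_cases h : mk x + mk y = c
            · rw [if_pos h, if_pos (by rw [← h]; abel)]
            · rw [if_neg h, if_neg (fun h' => h (by rw [h']; abel))]
          · intro c' _ hc'
            rw [if_neg (Ne.symm hc'), zero_mul]
          · intro h
            exact absurd (Finset.mem_univ _) h
        rw [hsum]
        exact sum_mem fun c' _ => mul_mem (hp1 _ (he _)) (hp2 _ (he _))
      · show Δ (τ i) ∈ T
        let S₀ : Set J := Set.range u
        have hS₀f : S₀.Finite := Set.finite_range u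
        have hS₀J : S₀ ⊆ J1 := by
          rintro _ ⟨x, rfl⟩
          exact hu x
        have hS₀s : ∀ (σ : Γ), ∀ z ∈ S₀, σ • z ∈ S₀ := by
          rintro σ _ ⟨x, rfl⟩
          exact ⟨σ • x, husm σ x⟩
        choose P hP using hC.law S₀ S₀ hS₀f hS₀f hS₀J hS₀J hS₀s hS₀s
        let S₁ : Set J := Set.image2 (· + ·) S₀ S₀
        have hS₁f : S₁.Finite := hS₀f.image2 _ hS₀f
        have hS₁J : S₁ ⊆ J1 := by
          rintro _ ⟨z, hz, w, hw, rfl⟩
          exact J1.add_mem (hS₀J hz) (hS₀J hw)
        have hS₁s : ∀ (σ : Γ), ∀ z ∈ S₁, σ • z ∈ S₁ := by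
          rintro σ _ ⟨z, hz, w, hw, rfl⟩
          exact ⟨σ • z, hS₀s σ z hz, σ • w, hS₀s σ w hw, (smul_add _ _ _).symm⟩
        let ε : G ⧸ N → G ⧸ N → J := fun c c' => yc c + yc c' - yc (c + c')
        have hεu : ∀ x y, u (x + y) = (u x + u y) + ε (mk x) (mk y) := by
          intro x y
          simp only [u, ε, hmk_add, map_add]
          abel
        have hεJ : ∀ c c', ε c c' ∈ J1 := by
          intro c c'
          obtain ⟨x, rfl⟩ := hmk_surj c
          obtain ⟨y, rfl⟩ := hmk_surj c'
          have h : ε (mk x) (mk y) = u (x + y) - (u x + u y) := by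
            rw [hεu]
            abel
          rw [h]
          exact J1.sub_mem (hu _) (J1.add_mem (hu _) (hu _))
        have hεfix : ∀ c c' (σ : Γ), σ • ε c c' = ε c c' := by
          intro c c' σ
          simp only [ε, smul_add, smul_sub, hyfix]
        have hlaw2 : ∀ c c', ∃ Q : MvPolynomial (ι ⊕ ι) O, ∀ z ∈ S₁, ∀ w ∈ ({ε c c'} : Set J),
            t i (z + w) = MvPolynomial.aeval (Sum.elim (fun j => t j z) (fun j => t j w)) Q :=
          fun c c' => hC.law S₁ {ε c c'} hS₁f (Set.finite_singleton _) hS₁J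
            (by
              intro z hz
              rw [Set.mem_singleton_iff] at hz
              rw [hz]
              exact hεJ c c') hS₁s
            (by
              intro σ z hz
              rw [Set.mem_singleton_iff] at hz ⊢
              rw [hz, hεfix]) i
        choose Q hQ using hlaw2
        have htε : ∀ c c' j, t j (ε c c') ∈ O := fun c c' j =>
          (hC.mem_O _).2 ⟨hC.T1 j _ (hεJ c c'), fun σ => by
            rw [← hC.T2 j σ _ (hεJ c c'), hεfix]⟩
        let W : ι → G × G → K := fun j =>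
          MvPolynomial.aeval (Sum.elim (fun l => p1 (τ l)) (fun l => p2 (τ l))) (P j)
        have hW : ∀ j, W j ∈ T := fun j => aeval_mem' T _ (by
          rintro (l | l)
          exacts [hp1 _ (hτ l), hp2 _ (hτ l)]) _
        let Z : G ⧸ N → G ⧸ N → G × G → K := fun c c' =>
          MvPolynomial.aeval
            (Sum.elim W (fun j => algebraMap O (G × G → K) ⟨t j (ε c c'), htε c c' j⟩)) (Q c c')
        have hZ : ∀ c c', Z c c' ∈ T := fun c c' => aeval_mem' T _ (by
          rintro (l | l)
          exacts [hW l, T.algebraMap_mem _]) _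
        have hWv : ∀ j x y, W j (x, y) = t j (u x + u y) := by
          intro j x y
          rw [hP j (u x) ⟨x, rfl⟩ (u y) ⟨y, rfl⟩]
          simp only [W]
          rw [aeval_fun]
          congr 2
          funext s
          rcases s with l | l <;> rfl
        have hZv : ∀ x y, Z (mk x) (mk y) (x, y) = t i (u (x + y)) := by
          intro x y
          rw [hεu, hQ (mk x) (mk y) (u x + u y) ⟨u x, ⟨x, rfl⟩, u y, ⟨y, rfl⟩, rfl⟩ _ rfl]
          simp only [Z]
          rw [aeval_fun]
          congr 2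
          funext s
          rcases s with l | l
          · exact hWv l x y
          · rfl
        have hsum : Δ (τ i) = ∑ c, ∑ c', p1 (e c) * p2 (e c') * Z c c' := by
          funext ⟨x, y⟩
          simp only [Finset.sum_apply, Pi.mul_apply]
          rw [Finset.sum_eq_single (mk x), Finset.sum_eq_single (mk y)]
          · rw [hZv]
            simp only [Δ, p1, p2, pull_apply, e, τ, if_true, one_mul]
          · intro c' _ hc'
            simp only [p2, pull_apply, e]
            rw [if_neg (Ne.symm hc'), mul_zero, zero_mul]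
          · intro h
            exact absurd (Finset.mem_univ _) h
          · intro c _ hc
            refine Finset.sum_eq_zero fun c' _ => ?_
            simp only [p1, pull_apply, e]
            rw [if_neg (Ne.symm hc), zero_mul, zero_mul]
          · intro h
            exact absurd (Finset.mem_univ _) h
        rw [hsum]
        exact sum_mem fun c _ => sum_mem fun c' _ =>
          mul_mem (mul_mem (hp1 _ (he _)) (hp2 _ (he _))) (hZ c c')
    intro φ hφ
    obtain ⟨n, a, b, ha, hb, h⟩ := sum_form O R (Δ φ) (key ⟨φ, hφ, rfl⟩)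
    exact ⟨n, a, b, ha, hb, fun x y => h x y⟩

end Main

end Fermat.Agent.FF19.Ord

end
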