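/-
TEAM FF19 -> S19, block R [ORDER] (helper23).  THE DESCENT LEMMA (DL), abstract form, Mathlib only.

`Γ` acts on the field `K` and on the set `X`; `Y ⊆ X` stable; `A` a valuation subring of `K`, `O = A ∩ K^Γ`.
If an equivariant function `F` on `Y` is a polynomial over `A` in equivariant functions `e j`, then it is a
polynomial over `O` in the `e j`.
-/
import Fermat.Agent.FF19.Ord.Core

set_option autoImplicit false

noncomputable section

namespace Fermat.Agent.FF19.Ord

open scoped Classical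

section DL

variable {Γ K X ι : Type} [Group Γ] [Field K] [MulSemiringAction Γ K] [MulAction Γ X]

/-- twisting a relation by `σ`. -/
lemma rel_smul (Y : Set X) (hY : ∀ (σ : Γ), ∀ y ∈ Y, σ • y ∈ Y) (v : ι → X → K)
    (hv : ∀ i (σ : Γ), ∀ y ∈ Y, v i (σ • y) = σ • v i y) (F : X → K)
    (hF : ∀ (σ : Γ), ∀ y ∈ Y, F (σ • y) = σ • F y) (s : Finset ι) (c : ι → K)
    (hrel : ∀ y ∈ Y, F y = ∑ i ∈ s, c i * v i y) (σ : Γ) :
    ∀ y ∈ Y, F y = ∑ i ∈ s, (σ • c i) * v i y := by
  intro y hy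
  have hy' : σ⁻¹ • y ∈ Y := hY _ _ hy
  have h1 := congrArg (σ • ·) (hrel _ hy')
  simp only [Finset.smul_sum, smul_mul'] at h1
  rw [← hF σ _ hy', smul_inv_smul] at h1
  rw [h1]
  refine Finset.sum_congr rfl fun i _ => ?_
  rw [← hv i σ _ hy', smul_inv_smul]

/-- **(DL)**, linear form. -/
lemma dl_lin (A : ValuationSubring K) (O : Subring K)
    (hO : ∀ a : K, a ∈ O ↔ a ∈ A ∧ ∀ σ : Γ, σ • a = a)
    (Y : Set X) (hY : ∀ (σ : Γ), ∀ y ∈ Y, σ • y ∈ Y) (v : ι → X → K)
    (hv : ∀ i (σ : Γ), ∀ y ∈ Y, v i (σ • y) = σ • v i y) (F : X → K)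
    (hF : ∀ (σ : Γ), ∀ y ∈ Y, F (σ • y) = σ • F y) :
    ∀ (n : ℕ) (s : Finset ι), s.card ≤ n → ∀ a : ι → K, (∀ i ∈ s, a i ∈ A) →
    (∀ y ∈ Y, F y = ∑ i ∈ s, a i * v i y) →
    ∃ o : ι → K, (∀ i, o i ∈ O) ∧ ∀ y ∈ Y, F y = ∑ i ∈ s, o i * v i y := by
  classical
  intro n
  induction n with
  | zero =>
    intro s hs a _ hrel
    rw [Finset.card_eq_zero.1 (Nat.le_zero.1 hs)] at hrel ⊢
    exact ⟨fun _ => 0, fun _ => O.zero_mem, fun y hy => by rw [hrel y hy]; simp⟩
  | succ n ih =>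
    intro s hs a ha hrel
    by_cases hfix : ∀ i ∈ s, ∀ σ : Γ, σ • a i = a i
    · refine ⟨fun i => if i ∈ s then a i else 0, fun i => ?_, fun y hy => ?_⟩
      · by_cases hi : i ∈ s
        · simp only [if_pos hi]
          exact (hO _).2 ⟨ha i hi, hfix i hi⟩
        · simp only [if_neg hi]
          exact O.zero_mem
      · rw [hrel y hy]
        exact Finset.sum_congr rfl fun i hi => by simp only [if_pos hi]
    · simp only [not_forall] at hfix
      obtain ⟨i1, hi1, σ, hσ⟩ := hfix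
      have hrelσ := rel_smul Y hY v hv F hF s a hrel σ
      obtain ⟨c, ⟨i2, hi2, hci2⟩, hcrel⟩ : ∃ c : ι → K, (∃ i ∈ s, c i ≠ 0) ∧
          ∀ y ∈ Y, ∑ i ∈ s, c i * v i y = 0 :=
        ⟨fun i => σ • a i - a i, ⟨i1, hi1, sub_ne_zero.2 hσ⟩, fun y hy => by
          simp only [sub_mul, Finset.sum_sub_distrib]
          rw [← hrelσ y hy, ← hrel y hy, sub_self]⟩
      -- the coefficient of maximal valuation
      obtain ⟨i0, hi0, hmax⟩ := Finset.exists_max_image s (fun i => A.valuation (c i)) ⟨i2, hi2⟩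
      have hci0 : c i0 ≠ 0 := by
        intro h0
        have h4 := hmax i2 hi2
        simp only [h0, map_zero, le_zero_iff, map_eq_zero] at h4
        exact hci2 h4
      have hq : ∀ i ∈ s, c i / c i0 ∈ A := by
        intro i hi
        rw [← A.valuation_le_one_iff, map_div₀]
        exact div_le_one_of_le₀ (hmax i hi) zero_le
      have hv0 : ∀ y ∈ Y, v i0 y = - ∑ i ∈ s.erase i0, c i / c i0 * v i y := by
        intro y hy
        have h5 := hcrel y hy
        rw [← Finset.add_sum_erase s _ hi0] at h5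
        have h6 : ∑ i ∈ s.erase i0, c i / c i0 * v i y = (∑ i ∈ s.erase i0, c i * v i y) / c i0 := by
          rw [Finset.sum_div]
          exact Finset.sum_congr rfl fun i _ => by ring
        have h7 : ∑ i ∈ s.erase i0, c i * v i y = - (c i0 * v i0 y) := by
          linear_combination h5
        rw [h6, h7]
        field_simp
      obtain ⟨o, ho, horel⟩ := ih (s.erase i0)
        (by rw [Finset.card_erase_of_mem hi0]; omega)
        (fun i => a i - a i0 * (c i / c i0))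
        (fun i hi => A.sub_mem (ha i (Finset.mem_of_mem_erase hi))
          (A.mul_mem _ _ (ha i0 hi0) (hq i (Finset.mem_of_mem_erase hi))))
        (fun y hy => by
          rw [hrel y hy, ← Finset.add_sum_erase s _ hi0, hv0 y hy]
          simp only [sub_mul, Finset.sum_sub_distrib, mul_neg, Finset.mul_sum]
          have : ∑ i ∈ s.erase i0, a i0 * (c i / c i0 * v i y) =
              ∑ i ∈ s.erase i0, a i0 * (c i / c i0) * v i y :=
            Finset.sum_congr rfl fun i _ => by ring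
          rw [this]
          ring)
      refine ⟨fun i => if i = i0 then 0 else o i, fun i => ?_, fun y hy => ?_⟩
      · by_cases hi : i = i0
        · simp only [if_pos hi]
          exact O.zero_mem
        · simp only [if_neg hi]
          exact ho i
      · rw [horel y hy, ← Finset.add_sum_erase s _ hi0]
        simp only [if_true, zero_mul, zero_add]
        exact Finset.sum_congr rfl fun i hi => by
          simp only [if_neg (Finset.ne_of_mem_erase hi)]

/-- **(DL)**, polynomial form. -/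
theorem dl_poly {τ : Type} (A : ValuationSubring K) (O : Subring K)
    (hO : ∀ a : K, a ∈ O ↔ a ∈ A ∧ ∀ σ : Γ, σ • a = a)
    (Y : Set X) (hY : ∀ (σ : Γ), ∀ y ∈ Y, σ • y ∈ Y) (e : τ → X → K)
    (he : ∀ j (σ : Γ), ∀ y ∈ Y, e j (σ • y) = σ • e j y) (F : X → K)
    (hF : ∀ (σ : Γ), ∀ y ∈ Y, F (σ • y) = σ • F y)
    (P : MvPolynomial τ A) (hP : ∀ y ∈ Y, F y = MvPolynomial.aeval (fun j => e j y) P) :
    ∃ P' : MvPolynomial τ O, ∀ y ∈ Y, F y = MvPolynomial.aeval (fun j => e j y) P' := by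
  let v : (τ →₀ ℕ) → X → K := fun d y => ∏ j ∈ d.support, e j y ^ d j
  have hv : ∀ d (σ : Γ), ∀ y ∈ Y, v d (σ • y) = σ • v d y := by
    intro d σ y hy
    simp only [v, Finset.smul_prod', smul_pow']
    exact Finset.prod_congr rfl fun j _ => by rw [he j σ y hy]
  obtain ⟨o, ho, hrel⟩ := dl_lin A O hO Y hY v hv F hF P.support.card P.support le_rfl
    (fun d => ((P.coeff d : A) : K)) (fun d _ => (P.coeff d).2) (fun y hy => by
      rw [hP y hy, MvPolynomial.aeval_def, MvPolynomial.eval₂_eq]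
      rfl)
  refine ⟨∑ d ∈ P.support, MvPolynomial.monomial d ⟨o d, ho d⟩, fun y hy => ?_⟩
  rw [hrel y hy, map_sum]
  refine Finset.sum_congr rfl fun d _ => ?_
  rw [MvPolynomial.aeval_monomial]
  rfl

end DL

section MainA

variable {Γ K J ι : Type} [Group Γ] [Field K] [MulSemiringAction Γ K] [AddCommGroup J]
  [DistribMulAction Γ J]

/-- `O = A ∩ K^Γ`. -/
def fixO (Γ : Type) {K : Type} [Group Γ] [Field K] [MulSemiringAction Γ K] (A : ValuationSubring K) :
    Subring K where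
  carrier := {a | a ∈ A ∧ ∀ σ : Γ, σ • a = a}
  mul_mem' := by
    rintro a b ⟨ha, ha'⟩ ⟨hb, hb'⟩
    exact ⟨A.mul_mem _ _ ha hb, fun σ => by rw [smul_mul', ha', hb']⟩
  one_mem' := ⟨A.one_mem, fun σ => smul_one σ⟩
  add_mem' := by
    rintro a b ⟨ha, ha'⟩ ⟨hb, hb'⟩
    exact ⟨A.add_mem _ _ ha hb, fun σ => by rw [smul_add, ha', hb']⟩
  zero_mem' := ⟨A.zero_mem, fun σ => smul_zero σ⟩
  neg_mem' := by
    rintro a ⟨ha, ha'⟩
    exact ⟨A.neg_mem _ ha, fun σ => by rw [smul_neg, ha']⟩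

lemma mem_fixO (A : ValuationSubring K) (a : K) : a ∈ fixO Γ A ↔ a ∈ A ∧ ∀ σ : Γ, σ • a = a :=
  Iff.rfl

/-- the hypotheses on the coordinates of the kernel of reduction, with the group law over `A`
(the provider of `law` may ignore the stability hypotheses). -/
structure IsCoordA (Γ : Type) {K J ι : Type} [Group Γ] [Field K] [MulSemiringAction Γ K] [AddCommGroup J]
    [DistribMulAction Γ J] (A : ValuationSubring K) (J1 : AddSubgroup J) (t : ι → J → K) : Prop where
  stab : ∀ (σ : Γ), ∀ z ∈ J1, σ • z ∈ J1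
  T1 : ∀ i, ∀ z ∈ J1, t i z ∈ A
  T2 : ∀ i (σ : Γ), ∀ z ∈ J1, t i (σ • z) = σ • t i z
  T3 : ∀ z ∈ J1, ∀ w ∈ J1, (∀ i, t i z = t i w) → z = w
  law : ∀ S S' : Set J, S.Finite → S'.Finite → S ⊆ J1 → S' ⊆ J1 → (∀ (σ : Γ), ∀ z ∈ S, σ • z ∈ S) →
    (∀ (σ : Γ), ∀ z ∈ S', σ • z ∈ S') → ∀ i, ∃ P : MvPolynomial (ι ⊕ ι) A, ∀ z ∈ S, ∀ w ∈ S',
      t i (z + w) = MvPolynomial.aeval (Sum.elim (fun j => t j z) (fun j => t j w)) P

theorem coord_of_A (A : ValuationSubring K) (J1 : AddSubgroup J) (t : ι → J → K)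
    (h : IsCoordA Γ A J1 t) : IsCoord Γ A.toSubring (fixO Γ A) J1 t where
  mem_O := fun a => mem_fixO A a
  stab := h.stab
  T1 := h.T1
  T2 := h.T2
  T3 := h.T3
  law := by
    intro S S' hS hS' hSJ hSJ' hs hs' i
    obtain ⟨P, hP⟩ := h.law S S' hS hS' hSJ hSJ' hs hs' i
    obtain ⟨P', hP'⟩ := dl_poly (Γ := Γ) (X := J × J) A (fixO Γ A) (fun a => mem_fixO A a) (S ×ˢ S')
      (fun σ y hy => ⟨hs σ _ hy.1, hs' σ _ hy.2⟩)
      (Sum.elim (fun j q => t j q.1) (fun j q => t j q.2))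
      (by
        rintro (j | j) σ y hy
        · exact h.T2 j σ _ (hSJ hy.1)
        · exact h.T2 j σ _ (hSJ' hy.2))
      (fun q => t i (q.1 + q.2))
      (by
        intro σ y hy
        show t i (σ • y.1 + σ • y.2) = _
        rw [← smul_add]
        exact h.T2 i σ _ (J1.add_mem (hSJ hy.1) (hSJ' hy.2)))
      P
      (by
        intro y hy
        show t i (y.1 + y.2) = _
        rw [hP _ hy.1 _ hy.2]
        congr 2
        funext s
        rcases s with j | j <;> rfl)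
    refine ⟨P', fun z hz w hw => ?_⟩
    have h1 : t i (z + w) = _ := hP' (z, w) ⟨hz, hw⟩
    rw [h1]
    congr 2
    funext s
    rcases s with j | j <;> rfl

/-- **BLOCK R**, with the group law over `A`. -/
theorem mainA [Finite ι] (A : ValuationSubring K) (J1 : AddSubgroup J) (t : ι → J → K)
    (hC : IsCoordA Γ A J1 t) (G : Type) [AddCommGroup G] [Finite G] [MulAction Γ G] (inc : G →+ J)
    (hinj : Function.Injective inc) (hinc : ∀ (σ : Γ) (x : G), inc (σ • x) = σ • inc x)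
    (lift : ∀ x : G, ∃ y : J, (∀ σ : Γ, σ • y = y) ∧ inc x - y ∈ J1) :
    ∃ R : Subalgebra (fixO Γ A) (G → K), IsLocOrd Γ (fixO Γ A) G R :=
  main A.toSubring (fixO Γ A) J1 t (coord_of_A A J1 t hC) G inc hinj hinc lift

end MainA

end Fermat.Agent.FF19.Ord

end
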