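/-
TEAM FF19 -> S19, block R [ORDER] (helper23).  ADAPTER:
`Law.Coord` (contract of the block L) + equivariance + lifting  ⟹  `Ord.IsLocOrd ↥I O G R` for ANY subring `O` with
`a ∈ O ↔ a ∈ A ∧ ∀ σ ∈ I, σ • a = a`.
-/
import Fermat.Agent.FF19.Ord.DL
import Fermat.Agent.FF19.Law.Defs

set_option autoImplicit false

noncomputable section

namespace Fermat.Agent.FF19.Ord

variable {Γ K : Type} [Group Γ] [Field K] [MulSemiringAction Γ K]

variable {J ι : Type} [AddCommGroup J] [DistribMulAction Γ J]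

/-- `IsCoordA` gives `IsCoord` for every presentation `O` of `A ∩ K^Γ`. -/
theorem coord_of_A_gen (A : ValuationSubring K) (O : Subring K)
    (hO : ∀ a : K, a ∈ O ↔ a ∈ A ∧ ∀ σ : Γ, σ • a = a) (J1 : AddSubgroup J) (t : ι → J → K)
    (h : IsCoordA Γ A J1 t) : IsCoord Γ A.toSubring O J1 t := by
  have e : O = fixO Γ A := by
    ext a
    rw [hO, mem_fixO]
  rw [e]
  exact coord_of_A A J1 t h

/-- from the output of the block L to the input of `Ord.mainA`. -/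
theorem ofLaw (I : Subgroup Γ) (A : ValuationSubring K) (J1 : AddSubgroup J) (T : ι → J → K)
    (hc : Law.Coord A J1 T) (stab : ∀ σ ∈ I, ∀ z ∈ J1, σ • z ∈ J1)
    (T2 : ∀ a, ∀ σ ∈ I, ∀ z ∈ J1, T a (σ • z) = σ • T a z) : IsCoordA I A J1 T where
  stab := fun σ z hz => stab σ.1 σ.2 z hz
  T1 := fun i z hz => A.nonunits_le (hc.small i z hz)
  T2 := fun i σ z hz => T2 i σ.1 σ.2 z hz
  T3 := hc.inj
  law := by
    intro S S' hS hS' hSJ hSJ' _ _ i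
    obtain ⟨P, hP⟩ := hc.law hS.toFinset hS'.toFinset
      (fun z hz => hSJ (hS.mem_toFinset.1 hz)) (fun z hz => hSJ' (hS'.mem_toFinset.1 hz)) i
    exact ⟨P, fun z hz w hw => hP z (hS.mem_toFinset.2 hz) w (hS'.mem_toFinset.2 hw)⟩

/-- **BLOCK R, final form.** -/
theorem mainO [Finite ι] (I : Subgroup Γ) (A : ValuationSubring K) (O : Subring K)
    (hO : ∀ a : K, a ∈ O ↔ a ∈ A ∧ ∀ σ ∈ I, σ • a = a) (J1 : AddSubgroup J)
    (T : ι → J → K) (hc : Law.Coord A J1 T) (stab : ∀ σ ∈ I, ∀ z ∈ J1, σ • z ∈ J1)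
    (T2 : ∀ a, ∀ σ ∈ I, ∀ z ∈ J1, T a (σ • z) = σ • T a z)
    (G : Type) [AddCommGroup G] [Finite G] [DistribMulAction Γ G] (inc : G →+ J)
    (hinj : Function.Injective inc) (hinc : ∀ σ ∈ I, ∀ x : G, inc (σ • x) = σ • inc x)
    (lift : ∀ x : G, ∃ y : J, (∀ σ ∈ I, σ • y = y) ∧ inc x - y ∈ J1) :
    ∃ R : Subalgebra O (G → K), IsLocOrd I O G R :=
  main (Γ := I) A.toSubring O J1 T
    (coord_of_A_gen A O
      (fun a => (hO a).trans ⟨fun h => ⟨h.1, fun σ => h.2 σ.1 σ.2⟩,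
        fun h => ⟨h.1, fun σ hσ => h.2 ⟨σ, hσ⟩⟩⟩) J1 T (ofLaw I A J1 T hc stab T2))
    G inc hinj (fun σ x => hinc σ.1 σ.2 x)
    (fun x => by
      obtain ⟨y, hy, hy'⟩ := lift x
      exact ⟨y, fun σ => hy σ.1 σ.2, hy'⟩)

lemma mem_fixO_sub (I : Subgroup Γ) (A : ValuationSubring K) (a : K) :
    a ∈ fixO I A ↔ a ∈ A ∧ ∀ σ ∈ I, σ • a = a :=
  ⟨fun h => ⟨h.1, fun σ hσ => h.2 ⟨σ, hσ⟩⟩, fun h => ⟨h.1, fun σ => h.2 σ.1 σ.2⟩⟩

end Fermat.Agent.FF19.Ord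

end
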