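/-
TEAM FF19 -> S19, block R [ORDER] (helper23).  ADAPTER for the `D/AbsDefs.lean` route:
`Law.Coord` (contract of the block L) + equivariance + lifting  ⟹  `D.IsLocOrd` (helper38's contract of the block D).
-/
import Fermat.Agent.FF19.Ord.AdaptLaw
import Fermat.Agent.FF19.D.AbsDefs

set_option autoImplicit false

noncomputable section

namespace Fermat.Agent.FF19.Ord

variable {Γ K : Type} [Group Γ] [Field K] [MulSemiringAction Γ K]

/-- from the output of `Ord.main` to the input of the block D. -/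
theorem toD {G : Type} [AddCommGroup G] [DistribMulAction Γ G] (I : Subgroup Γ) (O : Subring K)
    (R : Subalgebra O (G → K)) (h : IsLocOrd I O G R) : D.IsLocOrd I O R.toSubring where
  const := fun c hc => R.algebraMap_mem ⟨c, hc⟩
  eqv := fun φ hφ τ hτ x => h.equiv φ hφ ⟨τ, hτ⟩ x
  fg := by
    obtain ⟨n, b, hb⟩ := Submodule.fg_iff_exists_fin_generating_family.1 h.fg
    refine ⟨n, b, fun i => ?_, fun φ hφ => ?_⟩
    · have : b i ∈ Subalgebra.toSubmodule R := by
        rw [← hb]
        exact Submodule.subset_span ⟨i, rfl⟩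
      exact this
    · have h1 : φ ∈ Submodule.span O (Set.range b) := by
        rw [hb]
        exact hφ
      obtain ⟨c, hc⟩ := (Submodule.mem_span_range_iff_exists_fun O).1 h1
      exact ⟨fun i => (c i : K), fun i => (c i).2, hc.symm⟩
  sep := h.sep
  comul := h.comul

variable {J ι : Type} [AddCommGroup J] [DistribMulAction Γ J]

/-- **BLOCK R, final form** (`AbsDefs` route): `Law.Coord` + equivariance under `I` + lifting gives a local order in
the sense of `D/AbsDefs.lean`, over `O = A ∩ K^I`. -/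
theorem locOrd_of_coord [Finite ι] (I : Subgroup Γ) (A : ValuationSubring K) (J1 : AddSubgroup J)
    (T : ι → J → K) (hc : Law.Coord A J1 T) (stab : ∀ σ ∈ I, ∀ z ∈ J1, σ • z ∈ J1)
    (T2 : ∀ a, ∀ σ ∈ I, ∀ z ∈ J1, T a (σ • z) = σ • T a z)
    (G : Type) [AddCommGroup G] [Finite G] [DistribMulAction Γ G] (inc : G →+ J)
    (hinj : Function.Injective inc) (hinc : ∀ σ ∈ I, ∀ x : G, inc (σ • x) = σ • inc x)
    (lift : ∀ x : G, ∃ y : J, (∀ σ ∈ I, σ • y = y) ∧ inc x - y ∈ J1) :
    ∃ R : Subring (G → K), D.IsLocOrd I (fixO I A) R := by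
  obtain ⟨R, hR⟩ := mainO I A (fixO I A) (mem_fixO_sub I A) J1 T hc stab T2 G inc hinj hinc lift
  exact ⟨R.toSubring, toD I (fixO I A) R hR⟩

end Fermat.Agent.FF19.Ord

end
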