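/-
TEAM FF19 -> S19 (helper23).  `Top.Stmt_DL` from `Ord.dl_lin`.
-/
import Fermat.Agent.FF19.Ord.DL
import Fermat.Agent.FF19.Top.Defs

set_option autoImplicit false

noncomputable section

namespace Fermat.Agent.FF19.Ord

/-- the descent lemma in the shape of `Top/Defs.lean`. -/
theorem top_DL : Top.Stmt_DL := by
  intro Γ K X κ _ _ _ _ A O hA hO T hT e he φ hφ ⟨P, hP⟩
  let V : ValuationSubring K := { A with mem_or_inv_mem' := hA }
  have hV : ∀ a : K, a ∈ V ↔ a ∈ A := fun a => Iff.rfl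
  let v : (κ →₀ ℕ) → X → K := fun d y => ∏ j ∈ d.support, e j y ^ d j
  have hv : ∀ d (σ : Γ), ∀ y ∈ T, v d (σ • y) = σ • v d y := by
    intro d σ y hy
    simp only [v, Finset.smul_prod', smul_pow']
    exact Finset.prod_congr rfl fun j _ => by rw [he j σ y hy]
  obtain ⟨o, ho, hrel⟩ := dl_lin V O (fun a => (hO a).trans (by rw [hV])) T hT v hv φ hφ
    P.support.card P.support le_rfl
    (fun d => ((P.coeff d : A) : K)) (fun d _ => (P.coeff d).2) (fun y hy => by
      rw [hP y hy, MvPolynomial.aeval_def, MvPolynomial.eval₂_eq]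
      rfl)
  refine ⟨∑ d ∈ P.support, MvPolynomial.monomial d ⟨o d, ho d⟩, fun y hy => ?_⟩
  rw [hrel y hy, map_sum]
  refine Finset.sum_congr rfl fun d _ => ?_
  rw [MvPolynomial.aeval_monomial]
  rfl

end Fermat.Agent.FF19.Ord

end
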